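import Fermat.Agent.H23.MWE.Interfaces
import Mathlib.FieldTheory.Galois.Infinite

/-!
# P-MW block E, row MW-E-DESC2: Galois descent of subspaces of `ℚ̄ · F₀`

`descent : Fermat.Agent.H23.MWE.DescentStatement` — a `ℚ̄`-subspace of `ℚ̄ · F₀ ⊆ ℚ̄((q))` which is
stable under the coefficientwise Galois action is spanned by its rational elements.

Also `fixed : Fermat.Agent.H23.MWE.FixedStatement` (Galois-fixed elements are rational) and
`mem_span_range_toBar` (`ℚ̄ · F₀` is the `ℚ̄`-span of `F₀`).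

Proof of the descent: induction on the length of a representation `v = ∑ c_f • f`
(the classical "shortest relation" argument; no traces, no lifting of automorphisms).
-/

set_option autoImplicit false
set_option linter.style.haveILetI false

noncomputable section

open ModularCurve AlgebraicCurve IntermediateField

namespace Fermat.Agent.H15.MWE

open Fermat.Agent.H92.MW (QQbar)
open Fermat.Agent.H23.MWE

/-! ### `ℚ̄ · F₀` is the `ℚ̄`-span of `F₀` -/

section Span

variable (F₀ : IntermediateField ℚ (LaurentSeries ℚ))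

/-- The `ℚ̄`-span of the image of `F₀` in `ℚ̄ · F₀`. -/
def spanBar : Submodule QQbar (FBar F₀) :=
  Submodule.span QQbar (Set.range (toBar F₀))

theorem toBar_mem_spanBar (f : ↥F₀) : toBar F₀ f ∈ spanBar F₀ :=
  Submodule.subset_span ⟨f, rfl⟩

theorem algebraMap_mem_spanBar (c : QQbar) :
    algebraMap QQbar (FBar F₀) c ∈ spanBar F₀ := by
  have h : algebraMap QQbar (FBar F₀) c = c • toBar F₀ 1 := by
    rw [map_one, Algebra.smul_def, mul_one]
  rw [h]
  exact Submodule.smul_mem _ _ (toBar_mem_spanBar F₀ 1)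

theorem mul_mem_spanBar {x y : FBar F₀} (hx : x ∈ spanBar F₀)
    (hy : y ∈ spanBar F₀) : x * y ∈ spanBar F₀ := by
  have h : spanBar F₀ * spanBar F₀ ≤ spanBar F₀ := by
    unfold spanBar
    rw [Submodule.span_mul_span]
    refine Submodule.span_mono ?_
    rintro _ ⟨_, ⟨a, rfl⟩, _, ⟨b, rfl⟩, rfl⟩
    exact ⟨a * b, map_mul _ _ _⟩
  exact h (Submodule.mul_mem_mul hx hy)

/-- **`ℚ̄ · F₀` is the `ℚ̄`-span of `F₀`.** -/
theorem mem_span_range_toBar (v : FBar F₀) :
    v ∈ Submodule.span QQbar (Set.range (toBar F₀)) := by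
  letI alg : Algebra ↥F₀ (FBar F₀) := (toBar F₀).toAlgebra
  have halg : ∀ f : ↥F₀, algebraMap ↥F₀ (FBar F₀) f = toBar F₀ f := fun f => rfl
  haveI tower : IsScalarTower ℚ ↥F₀ (FBar F₀) :=
    IsScalarTower.of_algebraMap_eq fun q =>
      RingHom.congr_fun (Subsingleton.elim (algebraMap ℚ (FBar F₀))
        ((algebraMap ↥F₀ (FBar F₀)).comp (algebraMap ℚ ↥F₀))) q
  -- the subalgebra generated by the constants
  let A : Subalgebra ↥F₀ (FBar F₀) :=
    Algebra.adjoin ↥F₀ (Set.range (algebraMap QQbar (FBar F₀)))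
  have hconst : ∀ c : QQbar, IsIntegral ↥F₀ (algebraMap QQbar (FBar F₀) c) := by
    intro c
    have h1 : IsIntegral ℚ c := (AlgebraicClosure.isAlgebraic ℚ).isIntegral.isIntegral c
    have h2 : IsIntegral ℚ (algebraMap QQbar (FBar F₀) c) := h1.algebraMap
    exact h2.tower_top
  have hAint : ∀ y ∈ A, IsIntegral ↥F₀ y := fun y hy =>
    (Algebra.adjoin_le (S := integralClosure ↥F₀ (FBar F₀))
      (by rintro _ ⟨c, rfl⟩; exact hconst c)) hy
  -- `A ⊆ spanBar`
  have hsup : ∀ y ∈ A, y ∈ spanBar F₀ := by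
    intro y hy
    induction hy using Algebra.adjoin_induction with
    | mem z hz =>
        obtain ⟨c, rfl⟩ := hz
        exact algebraMap_mem_spanBar F₀ c
    | algebraMap f => exact toBar_mem_spanBar F₀ f
    | add a b _ _ ha hb => exact (spanBar F₀).add_mem ha hb
    | mul a b _ _ ha hb => exact mul_mem_spanBar F₀ ha hb
  -- every element lies in `A`
  have hall : ∀ x : LaurentSeries QQbar, x ∈ laurentBaseChange QQbar F₀ →
      ∃ a : FBar F₀, a ∈ A ∧ (a : LaurentSeries QQbar) = x := by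
    intro x hx
    rw [mem_laurentBaseChange_iff] at hx
    induction hx using Subfield.closure_induction with
    | mem y hy =>
        rcases hy with ⟨a, rfl⟩ | ⟨z, hz, rfl⟩
        · exact ⟨algebraMap QQbar (FBar F₀) a, Algebra.subset_adjoin ⟨a, rfl⟩, rfl⟩
        · exact ⟨toBar F₀ ⟨z, hz⟩, A.algebraMap_mem ⟨z, hz⟩, rfl⟩
    | one => exact ⟨1, A.one_mem, rfl⟩
    | add x y _ _ hx hy =>
        obtain ⟨a, ha, rfl⟩ := hx
        obtain ⟨b, hb, rfl⟩ := hy
        exact ⟨a + b, A.add_mem ha hb, rfl⟩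
    | neg x _ hx =>
        obtain ⟨a, ha, rfl⟩ := hx
        exact ⟨-a, A.neg_mem ha, rfl⟩
    | inv x _ hx =>
        obtain ⟨a, ha, rfl⟩ := hx
        have := Subalgebra.inv_mem_of_algebraic (A := A) (x := ⟨a, ha⟩)
          (hAint _ ha).isAlgebraic
        exact ⟨a⁻¹, this, rfl⟩
    | mul x y _ _ hx hy =>
        obtain ⟨a, ha, rfl⟩ := hx
        obtain ⟨b, hb, rfl⟩ := hy
        exact ⟨a * b, A.mul_mem ha hb, rfl⟩
  obtain ⟨a, ha, hav⟩ := hall v v.2
  have : a = v := Subtype.ext hav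
  rw [← this]
  exact hsup _ ha

end Span

/-! ### The Galois action on linear combinations -/

section Galois

variable (F₀ : IntermediateField ℚ (LaurentSeries ℚ))

theorem galois_smul_toBar (σ : GalQ) (f : ↥F₀) :
    arithmeticGalois F₀ σ • toBar F₀ f = toBar F₀ f :=
  Subtype.ext (coeffMap_coeffEmb σ (f : LaurentSeries ℚ))

set_option maxHeartbeats 1000000 in
theorem galois_smul_smul (σ : GalQ) (c : QQbar) (x : FBar F₀) :
    arithmeticGalois F₀ σ • (c • x) = σ c • (arithmeticGalois F₀ σ • x) := by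
  rw [Algebra.smul_def, Algebra.smul_def, smul_mul', SemilinearAut.smul_algebraMap,
    baseAut_arithmeticGalois]
  rfl

set_option maxHeartbeats 1000000 in
theorem galois_smul_sum (σ : GalQ) (s : Finset ↥F₀) (c : ↥F₀ → QQbar) :
    arithmeticGalois F₀ σ • (∑ f ∈ s, c f • toBar F₀ f) = ∑ f ∈ s, σ (c f) • toBar F₀ f := by
  rw [Finset.smul_sum]
  refine Finset.sum_congr rfl fun f _ => ?_
  rw [galois_smul_smul, galois_smul_toBar]

theorem toBar_algebraMap (q : ℚ) :
    toBar F₀ (algebraMap ℚ ↥F₀ q) = algebraMap QQbar (FBar F₀) (algebraMap ℚ QQbar q) :=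
  RingHom.congr_fun (Subsingleton.elim ((toBar F₀).comp (algebraMap ℚ ↥F₀))
    ((algebraMap QQbar (FBar F₀)).comp (algebraMap ℚ QQbar))) q

theorem rat_smul_toBar (q : ℚ) (f : ↥F₀) :
    algebraMap ℚ QQbar q • toBar F₀ f = toBar F₀ (q • f) := by
  rw [Algebra.smul_def, Algebra.smul_def, map_mul, toBar_algebraMap]

/-- `ℚ̄ / ℚ` is Galois (for the algebra instance found by instance search). -/
theorem isGalois_QQbar_mwe : IsGalois ℚ QQbar := by
  have h : (AlgebraicClosure.instAlgebra ℚ : Algebra ℚ (AlgebraicClosure ℚ)) =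
      DivisionRing.toRatAlgebra := Subsingleton.elim _ _
  rw [← h]
  infer_instance

theorem mem_range_of_fixed {c : QQbar} (hc : ∀ σ : GalQ, σ c = c) :
    c ∈ Set.range (algebraMap ℚ QQbar) :=
  haveI := isGalois_QQbar_mwe
  (InfiniteGalois.mem_range_algebraMap_iff_fixed (k := ℚ) (K := QQbar) c).mpr hc

theorem exists_galois_ne {c : QQbar} (hc : c ∉ Set.range (algebraMap ℚ QQbar)) :
    ∃ σ : GalQ, σ c ≠ c := by
  by_contra hcon
  push Not at hcon
  exact hc (mem_range_of_fixed hcon)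

end Galois

/-! ### The descent -/

section Descent

variable (F₀ : IntermediateField ℚ (LaurentSeries ℚ))

/-- The span of the rational elements of `V`. -/
def ratSpan (V : Submodule QQbar (FBar F₀)) : Submodule QQbar (FBar F₀) :=
  Submodule.span QQbar {w : FBar F₀ | w ∈ V ∧ ∃ f : ↥F₀, toBar F₀ f = w}

set_option maxHeartbeats 2000000 in
theorem descent_aux (V : Submodule QQbar (FBar F₀))
    (hV : ∀ (σ : GalQ) (v : FBar F₀), v ∈ V → arithmeticGalois F₀ σ • v ∈ V) :
    ∀ (n : ℕ) (s : Finset ↥F₀), s.card = n → ∀ c : ↥F₀ → QQbar,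
      (∑ f ∈ s, c f • toBar F₀ f) ∈ V → (∑ f ∈ s, c f • toBar F₀ f) ∈ ratSpan F₀ V := by
  classical
  intro n
  induction n with
  | zero =>
    intro s hs c _
    rw [Finset.card_eq_zero.mp hs, Finset.sum_empty]
    exact Submodule.zero_mem _
  | succ n ih =>
    intro s hs c hv
    by_cases hzero : ∃ f ∈ s, c f = 0
    · -- a coefficient vanishes: shorter sum
      obtain ⟨f₁, hf₁, hc₁⟩ := hzero
      have hsum : ∑ f ∈ s, c f • toBar F₀ f = ∑ f ∈ s.erase f₁, c f • toBar F₀ f := by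
        rw [← Finset.add_sum_erase s _ hf₁, hc₁, zero_smul, zero_add]
      rw [hsum] at hv ⊢
      exact ih (s.erase f₁) (by rw [Finset.card_erase_of_mem hf₁, hs]; rfl) c hv
    · push Not at hzero
      obtain ⟨f₀, hf₀⟩ : s.Nonempty := Finset.card_pos.mp (by omega)
      have hc0 : c f₀ ≠ 0 := hzero f₀ hf₀
      -- normalise the coefficient of `f₀` to `1`
      obtain ⟨c', hc'⟩ : ∃ c' : ↥F₀ → QQbar, ∀ f, c' f = (c f₀)⁻¹ * c f :=
        ⟨fun f => (c f₀)⁻¹ * c f, fun _ => rfl⟩
      have hsum' : ∑ f ∈ s, c' f • toBar F₀ f = (c f₀)⁻¹ • ∑ f ∈ s, c f • toBar F₀ f := by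
        rw [Finset.smul_sum]
        exact Finset.sum_congr rfl fun f _ => by rw [hc', mul_smul]
      have hv' : ∑ f ∈ s, c' f • toBar F₀ f ∈ V := by
        rw [hsum']; exact V.smul_mem _ hv
      suffices h : ∑ f ∈ s, c' f • toBar F₀ f ∈ ratSpan F₀ V by
        have h1 : ∑ f ∈ s, c f • toBar F₀ f = c f₀ • ∑ f ∈ s, c' f • toBar F₀ f := by
          rw [hsum', smul_smul, mul_inv_cancel₀ hc0, one_smul]
        rw [h1]
        exact Submodule.smul_mem _ _ h
      have hc'1 : c' f₀ = 1 := by rw [hc', inv_mul_cancel₀ hc0]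
      by_cases hrat : ∀ f ∈ s, c' f ∈ Set.range (algebraMap ℚ QQbar)
      · -- all coefficients are rational: the element itself is rational
        choose! q hq using hrat
        have h1 : ∑ f ∈ s, c' f • toBar F₀ f = toBar F₀ (∑ f ∈ s, q f • f) := by
          rw [map_sum]
          refine Finset.sum_congr rfl fun f hf => ?_
          rw [← hq f hf, rat_smul_toBar]
        exact Submodule.subset_span ⟨hv', _, h1.symm⟩
      · push Not at hrat
        obtain ⟨f₁, hf₁, hirr⟩ := hrat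
        obtain ⟨σ, hσ⟩ := exists_galois_ne hirr
        obtain ⟨cσ, hcσ⟩ : ∃ cσ : ↥F₀ → QQbar, ∀ f, cσ f = σ (c' f) :=
          ⟨fun f => σ (c' f), fun _ => rfl⟩
        have hσ' : cσ f₁ ≠ c' f₁ := by rw [hcσ]; exact hσ
        have hcσ0 : cσ f₀ = 1 := by rw [hcσ, hc'1, map_one]
        have hgal : arithmeticGalois F₀ σ • (∑ f ∈ s, c' f • toBar F₀ f) =
            ∑ f ∈ s, cσ f • toBar F₀ f := by
          rw [galois_smul_sum]
          exact Finset.sum_congr rfl fun f _ => by rw [hcσ]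
        clear hcσ hσ
        have hd0 : cσ f₁ - c' f₁ ≠ 0 := sub_ne_zero.mpr hσ'
        -- `u = σ v - v` is shorter
        have hu : (∑ f ∈ s, (cσ f - c' f) • toBar F₀ f) ∈ V := by
          have h1 := hV σ _ hv'
          rw [hgal] at h1
          have h2 := V.sub_mem h1 hv'
          rw [← Finset.sum_sub_distrib] at h2
          have h3 : ∑ f ∈ s, (cσ f • toBar F₀ f - c' f • toBar F₀ f) =
              ∑ f ∈ s, (cσ f - c' f) • toBar F₀ f :=
            Finset.sum_congr rfl fun f _ => (sub_smul _ _ _).symm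
          rwa [h3] at h2
        have hu' : (∑ f ∈ s, (cσ f - c' f) • toBar F₀ f) =
            ∑ f ∈ s.erase f₀, (cσ f - c' f) • toBar F₀ f := by
          rw [← Finset.add_sum_erase s _ hf₀, hc'1, hcσ0, sub_self, zero_smul, zero_add]
        have huW : (∑ f ∈ s, (cσ f - c' f) • toBar F₀ f) ∈ ratSpan F₀ V := by
          rw [hu'] at hu ⊢
          exact ih (s.erase f₀) (by rw [Finset.card_erase_of_mem hf₀, hs]; rfl) _ hu
        -- `v - (c' f₁ / d) u` is shorter
        have he : ∑ f ∈ s, (c' f - c' f₁ * (cσ f₁ - c' f₁)⁻¹ * (cσ f - c' f)) •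
              toBar F₀ f =
            ∑ f ∈ s, c' f • toBar F₀ f -
              (c' f₁ * (cσ f₁ - c' f₁)⁻¹) • ∑ f ∈ s, (cσ f - c' f) • toBar F₀ f := by
          rw [Finset.smul_sum, ← Finset.sum_sub_distrib]
          refine Finset.sum_congr rfl fun f _ => ?_
          rw [sub_smul, mul_smul (c' f₁ * (cσ f₁ - c' f₁)⁻¹)]
        have heV : ∑ f ∈ s, (c' f - c' f₁ * (cσ f₁ - c' f₁)⁻¹ * (cσ f - c' f)) •
              toBar F₀ f ∈ V := by
          rw [he]; exact V.sub_mem hv' (V.smul_mem _ hu)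
        have he' : ∑ f ∈ s, (c' f - c' f₁ * (cσ f₁ - c' f₁)⁻¹ * (cσ f - c' f)) •
              toBar F₀ f =
            ∑ f ∈ s.erase f₁, (c' f - c' f₁ * (cσ f₁ - c' f₁)⁻¹ * (cσ f - c' f)) •
              toBar F₀ f := by
          rw [← Finset.add_sum_erase s _ hf₁]
          have h0 : c' f₁ - c' f₁ * (cσ f₁ - c' f₁)⁻¹ * (cσ f₁ - c' f₁) = 0 := by
            rw [mul_assoc, inv_mul_cancel₀ hd0, mul_one, sub_self]
          rw [h0, zero_smul, zero_add]
        have heW : ∑ f ∈ s, (c' f - c' f₁ * (cσ f₁ - c' f₁)⁻¹ * (cσ f - c' f)) •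
              toBar F₀ f ∈ ratSpan F₀ V := by
          rw [he'] at heV ⊢
          exact ih (s.erase f₁) (by rw [Finset.card_erase_of_mem hf₁, hs]; rfl) _ heV
        have hfin : ∑ f ∈ s, c' f • toBar F₀ f =
            ∑ f ∈ s, (c' f - c' f₁ * (cσ f₁ - c' f₁)⁻¹ * (cσ f - c' f)) • toBar F₀ f +
              (c' f₁ * (cσ f₁ - c' f₁)⁻¹) •
                ∑ f ∈ s, (cσ f - c' f) • toBar F₀ f := by
          rw [he]; abel
        rw [hfin]
        exact Submodule.add_mem _ heW (Submodule.smul_mem _ _ huW)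

/-- **MW-E-DESC (2)**: Galois descent of subspaces of `ℚ̄ · F₀`. -/
theorem descent : DescentStatement := by
  intro F₀ V hV v hv
  have hspan := mem_span_range_toBar F₀ v
  obtain ⟨c, hc⟩ := (Finsupp.mem_span_range_iff_exists_finsupp).mp hspan
  have hsum : v = ∑ f ∈ c.support, c f • toBar F₀ f := by
    rw [← hc]; rfl
  have h := descent_aux F₀ V hV c.support.card c.support rfl (fun f => c f) (by rw [← hsum]; exact hv)
  rw [← hsum] at h
  exact h

set_option maxHeartbeats 2000000 in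
set_option synthInstance.maxHeartbeats 200000 in
/-- **MW-E-DESC (3)**: Galois-fixed elements of `ℚ̄ · F₀` lie in `F₀`. -/
theorem fixed : FixedStatement := by
  intro F₀ v hv
  by_cases hv0 : v = 0
  · exact ⟨0, by rw [map_zero, hv0]⟩
  -- the line spanned by `v`
  have hstab : ∀ (σ : GalQ) (w : FBar F₀), w ∈ Submodule.span QQbar {v} →
      arithmeticGalois F₀ σ • w ∈ Submodule.span QQbar {v} := by
    intro σ w hw
    obtain ⟨a, rfl⟩ := Submodule.mem_span_singleton.mp hw
    rw [galois_smul_smul, hv σ]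
    exact Submodule.smul_mem _ _ (Submodule.mem_span_singleton_self v)
  have hmem := descent F₀ (Submodule.span QQbar {v}) hstab v (Submodule.mem_span_singleton_self v)
  -- some rational element of the line is nonzero
  have hex : ∃ w : FBar F₀, w ≠ 0 ∧ w ∈ Submodule.span QQbar {v} ∧ ∃ f : ↥F₀, toBar F₀ f = w := by
    by_contra hcon
    push Not at hcon
    have hle : Submodule.span QQbar {w : FBar F₀ | w ∈ Submodule.span QQbar {v} ∧
        ∃ f : ↥F₀, toBar F₀ f = w} ≤ ⊥ := by
      rw [Submodule.span_le]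
      rintro w ⟨hw1, f, hf⟩
      by_contra hw0
      exact hcon w hw0 hw1 f hf
    exact hv0 ((Submodule.mem_bot QQbar).mp (hle hmem))
  obtain ⟨w, hw0, hwv, f, hf⟩ := hex
  obtain ⟨a, ha⟩ := Submodule.mem_span_singleton.mp hwv
  have ha0 : a ≠ 0 := by
    rintro rfl
    rw [zero_smul] at ha
    exact hw0 ha.symm
  -- `a` is Galois-fixed
  have hafix : ∀ σ : GalQ, σ a = a := by
    intro σ
    have h1 : arithmeticGalois F₀ σ • w = w := by rw [← hf, galois_smul_toBar]
    rw [← ha, galois_smul_smul, hv σ] at h1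
    have h2 : (σ a - a) • v = 0 := by rw [sub_smul, h1, sub_self]
    rcases smul_eq_zero.mp h2 with h3 | h3
    · exact sub_eq_zero.mp h3
    · exact absurd h3 hv0
  obtain ⟨q, hq⟩ := mem_range_of_fixed hafix
  have hq0 : q ≠ 0 := by
    rintro rfl
    rw [map_zero] at hq
    exact ha0 hq.symm
  refine ⟨q⁻¹ • f, ?_⟩
  rw [← rat_smul_toBar, hf, ← ha, smul_smul, map_inv₀, hq, inv_mul_cancel₀ ha0, one_smul]

end Descent

end Fermat.Agent.H15.MWE

end
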